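import Fermat.Agent.RT.Assembly.Residual
import Fermat.Agent.RT.Glue.Approx
import Fermat.Agent.CFT.TWPrimes.Residual
import Fermat.Agent.EC.Rep.TWHypothesis

/-!
# No stable line, in coordinates
-/

set_option autoImplicit false
set_option linter.style.haveILetI false

noncomputable section

open WeierstrassCurve WeierstrassCurve.Affine WeierstrassCurve.Affine.Point Polynomial
open scoped WeierstrassCurve.Affine TensorProduct

namespace Fermat.Agent.RT.Patch

open Fermat.Agent.Deform Fermat.Agent.RT.Assembly Fermat.Agent.Arith Module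

variable {k : Type} [Field k]

/-- No stable line, from the stable subspaces. -/
theorem noLine_of_stable (ρ : ResidualGaloisRep k) (b : Basis (Fin 2) k ρ.V) (H : Subgroup Gal)
    (h : ∀ V : Submodule k ρ.V, (∀ σ ∈ H, ∀ x ∈ V, ρ.ρ σ x ∈ V) → V = ⊥ ∨ V = ⊤) :
    CFT.TWPrimes.NoLine (matRes ρ b) H := by
  rintro ⟨w, hw, hst⟩
  set x : ρ.V := b.equivFun.symm w with hx
  have hx0 : x ≠ 0 := fun h0 => hw (b.equivFun.symm.map_eq_zero_iff.1 h0)
  rcases h (Submodule.span k {x}) (fun σ hσ z hz => by
    obtain ⟨c, rfl⟩ := Submodule.mem_span_singleton.1 hz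
    obtain ⟨d, hd⟩ := hst σ hσ
    have : ρ.ρ σ x = d • x := b.equivFun.injective (by
      rw [map_smul, hx, LinearEquiv.apply_symm_apply, ← hd]
      conv_rhs => rw [← b.equivFun.apply_symm_apply w]
      exact (LinearMap.toMatrix_mulVec_repr b b (ρ.ρ σ) _).symm)
    rw [map_smul, this]
    exact Submodule.smul_mem _ _ (Submodule.smul_mem _ _ (Submodule.mem_span_singleton_self x)))
    with hbot | htop
  · exact hx0 (Submodule.span_singleton_eq_bot.1 hbot)
  · have h1 := finrank_span_singleton (K := k) hx0
    rw [htop, finrank_top, ρ.finrank_eq] at h1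
    omega

end Fermat.Agent.RT.Patch

end
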