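import Fermat.Agent.RT.Assembly.Tame
import Fermat.Agent.RT.Glue.Approx

/-!
# Exact local relations of a representation over a complete local ring
-/

set_option autoImplicit false

noncomputable section

namespace Fermat.Agent.RT.Patch

open IsLocalRing Fermat.Agent.Deform Fermat.Agent.Arith Fermat.Agent.RT.Assembly

variable {A : Type} [CommRing A] [IsLocalRing A] {p : ℕ}

theorem pow_sub_one_mem {Y : M2 A} (hp : (p : A) ∈ maximalIdeal A) {i : ℕ} (hi : 1 ≤ i)
    (hY : ∀ a b, (Y - 1) a b ∈ maximalIdeal A ^ i) (a b : Fin 2) :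
    (Y ^ p - 1) a b ∈ maximalIdeal A ^ (i + 1) := by
  rw [← geom_sum_mul, Matrix.mul_apply]
  refine Ideal.sum_mem _ fun c _ => ?_
  rw [pow_succ']
  refine Ideal.mul_mem_mul ?_ (hY c b)
  have hres : (residue A).mapMatrix Y = 1 := by
    rw [← sub_eq_zero, ← map_one (residue A).mapMatrix, ← map_sub]
    ext x y
    rw [RingHom.mapMatrix_apply, Matrix.map_apply, Matrix.zero_apply, residue_eq_zero_iff]
    exact Ideal.pow_le_self (by omega) (hY x y)
  rw [← residue_eq_zero_iff]
  have h := congrFun (congrFun (map_sum (residue A).mapMatrix (fun t => Y ^ t) (Finset.range p)) a) c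
  simp only [map_pow, hres, one_pow, Finset.sum_const, Finset.card_range, RingHom.mapMatrix_apply,
    Matrix.map_apply] at h
  have hp0 : (p : ResidueField A) = 0 := by
    rw [← map_natCast (residue A), residue_eq_zero_iff]
    exact hp
  rw [h, Matrix.smul_apply, nsmul_eq_mul, hp0, zero_mul]

/-- A residually trivial matrix has `p`-power order modulo every power of the maximal ideal. -/
theorem pow_pow_sub_one_mem {Y : M2 A} (hp : (p : A) ∈ maximalIdeal A)
    (hY : ∀ a b, (Y - 1) a b ∈ maximalIdeal A) (j : ℕ) (a b : Fin 2) :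
    (Y ^ p ^ j - 1) a b ∈ maximalIdeal A ^ (j + 1) := by
  induction j generalizing a b with
  | zero => simpa using hY a b
  | succ j ih =>
    rw [show p ^ (j + 1) = p ^ j * p from pow_succ p j, pow_mul Y]
    exact pow_sub_one_mem hp (Nat.le_add_left 1 j) ih a b

/-- An inertia element with trivial tame characters acting trivially modulo the maximal ideal acts
trivially. -/
theorem eq_one_of_tameTrivial_of_residual [IsAdicComplete (maximalIdeal A) A] (hpr : p.Prime)
    (hp : (p : A) ∈ maximalIdeal A) {r : Gal →* M2 A} (hc : IsCont r) {v : ℕ} (hv : v.Prime)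
    (hvp : v ≠ p) {B : ValuationSubring QBar} (hB : B.LiesOverPrime v) {ν : Gal}
    (hν : ν ∈ B.inertiaSubgroupIn ℚ) (htriv : TameTrivial B ν)
    (hres : ∀ a b, (r ν - 1) a b ∈ maximalIdeal A) : r ν = 1 := by
  refine Matrix.ext fun a b => ?_
  rw [← sub_eq_zero]
  refine (inferInstance : IsHausdorff (maximalIdeal A) A).haus _ fun j => ?_
  rw [SModEq.zero, Ideal.smul_top_eq_map, Algebra.algebraMap_self, Ideal.map_id,
    Submodule.restrictScalars_self]
  obtain ⟨L, hL, hL'⟩ := hc j
  let q := (Ideal.Quotient.mk (maximalIdeal A ^ j))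
  have key : mapM q r ν = 1 := by
    refine eq_one_of_tameTrivial (mapM q r) ⟨L, hL, fun σ hσ => ?_⟩ hB hv hν htriv
      (n := p ^ j) (fun h => hvp ((Nat.prime_dvd_prime_iff_eq hv hpr).1 (hv.dvd_of_dvd_pow h))) ?_
    · refine Matrix.ext fun x y => ?_
      rw [mapM_apply, ← map_one q.mapMatrix, RingHom.mapMatrix_apply, Matrix.map_apply,
        Ideal.Quotient.eq]
      exact hL' σ hσ x y
    · rw [← map_pow]
      refine Matrix.ext fun x y => ?_
      rw [mapM_apply, ← map_one q.mapMatrix, RingHom.mapMatrix_apply, Matrix.map_apply,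
        Ideal.Quotient.eq, map_pow]
      exact Ideal.pow_le_pow_right j.le_succ (pow_pow_sub_one_mem hp hres j x y)
  have h := congrFun (congrFun key a) b
  rw [mapM_apply, ← map_one q.mapMatrix, RingHom.mapMatrix_apply, Matrix.map_apply,
    Ideal.Quotient.eq] at h
  exact h

/-- **The tame relation**: a Frobenius raises residually trivial inertia to the `v`-th power. -/
theorem frobenius_mul_inertia [IsAdicComplete (maximalIdeal A) A] (hpr : p.Prime)
    (hp : (p : A) ∈ maximalIdeal A) {r : Gal →* M2 A} (hc : IsCont r) {v : ℕ} (hv : v.Prime)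
    (hvp : v ≠ p) {B : ValuationSubring QBar} (hB : B.LiesOverPrime v)
    (hI : ∀ τ ∈ B.inertiaSubgroupIn ℚ, ∀ a b, (r τ - 1) a b ∈ maximalIdeal A) {σ φ : Gal}
    (hσ : σ ∈ B.inertiaSubgroupIn ℚ) (hφ : B.IsFrobeniusAt φ v) :
    r φ * r σ = r σ ^ v * r φ := by
  obtain ⟨hνI, hν⟩ := tameTrivial_frobenius_conj hφ hσ
  have h1 := eq_one_of_tameTrivial_of_residual hpr hp hc hv hvp hB hνI hν (hI _ hνI)
  have h2 : r (φ * σ * φ⁻¹ * (σ ^ v)⁻¹ * (σ ^ v * φ)) = r (σ ^ v * φ) := by
    rw [map_mul, h1, one_mul]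
  rw [show φ * σ * φ⁻¹ * (σ ^ v)⁻¹ * (σ ^ v * φ) = φ * σ by group, map_mul, map_mul, map_pow] at h2
  exact h2

/-- A determinant congruent to `v` modulo every power of `p` is `v`. -/
theorem eq_natCast_of_forall_congr [IsAdicComplete (maximalIdeal A) A]
    (hp : (p : A) ∈ maximalIdeal A) {x : A} {v : ℕ}
    (h : ∀ n : ℕ, x - v ∈ Ideal.span {(p : A) ^ n}) : x = v := by
  rw [← sub_eq_zero]
  refine (inferInstance : IsHausdorff (maximalIdeal A) A).haus _ fun j => ?_
  rw [SModEq.zero, Ideal.smul_top_eq_map, Algebra.algebraMap_self, Ideal.map_id,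
    Submodule.restrictScalars_self]
  exact ((Ideal.span_singleton_le_iff_mem _).2 (Ideal.pow_mem_pow hp j)) (h j)

end Fermat.Agent.RT.Patch

end
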