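import Fermat.Agent.RT.Glue.Main
import Fermat.Agent.RT.Glue.Inertia
import Fermat.Agent.RT.Assembly.LevelChar
import Fermat.Agent.RT.Assembly.Diamond

/-!
# Elements killed by the norm of the diamond subgroup at one place
-/

set_option autoImplicit false

noncomputable section

namespace Fermat.Agent.RT.Patch

open IsLocalRing Fermat.Agent.RT.Glue Fermat.Agent.RT.Assembly

/-- A unit trivial away from `v` is a power of one whose reduction at `v` generates. -/
theorem exists_pow_eq_of_cast_eq_one {L v : ℕ} [Fact v.Prime] (hv : v ∣ L) (hcop : v.Coprime (L / v))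
    {u₀ u : (ZMod L)ˣ} (hu₀ : ((u₀ : ZMod L).cast : ZMod (L / v)) = 1)
    (hu : ((u : ZMod L).cast : ZMod (L / v)) = 1) {a : (ZMod v)ˣ} (hu₀v : ZMod.unitsMap hv u₀ = a)
    (ha : orderOf a = v - 1) : ∃ i : ℕ, u = u₀ ^ i := by
  have htop : Submonoid.powers a = ⊤ := by
    refine eq_top_iff.2 fun x _ => ?_
    have : Subgroup.zpowers a = ⊤ := Subgroup.eq_top_of_card_eq _ (by
      rw [Nat.card_zpowers, ha, Nat.card_eq_fintype_card, ZMod.card_units])
    exact mem_powers_iff_mem_zpowers.2 (this ▸ Subgroup.mem_top x)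
  obtain ⟨i, hi⟩ := Submonoid.mem_powers_iff _ _ |>.1
    (htop ▸ Submonoid.mem_top (ZMod.unitsMap hv u) : ZMod.unitsMap hv u ∈ Submonoid.powers a)
  refine ⟨i, Units.ext ?_⟩
  have hmul : v * (L / v) = L := Nat.mul_div_cancel' hv
  set c : ZMod L ≃+* ZMod v × ZMod (L / v) :=
    (ZMod.ringEquivCongr hmul.symm).trans (ZMod.chineseRemainder hcop)
  have h1 : ∀ x : ZMod L, (c x).2 = (ZMod.castHom (Nat.div_dvd_of_dvd hv) (ZMod (L / v))) x :=
    fun x => (RingHom.congr_fun (Subsingleton.elim (ZMod.castHom (Nat.div_dvd_of_dvd hv) _)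
      ((RingHom.snd _ _).comp c.toRingHom)) x).symm
  have h2 : ∀ x : ZMod L, (c x).1 = (ZMod.castHom hv (ZMod v)) x :=
    fun x => (RingHom.congr_fun (Subsingleton.elim (ZMod.castHom hv _)
      ((RingHom.fst _ _).comp c.toRingHom)) x).symm
  refine c.injective (Prod.ext ?_ ?_)
  · rw [h2, h2, Units.val_pow_eq_pow_val, map_pow]
    have := congrArg Units.val hi
    rw [Units.val_pow_eq_pow_val, ← hu₀v, ZMod.unitsMap_val, ZMod.unitsMap_val] at this
    simpa using this.symm
  · rw [h1, h1, Units.val_pow_eq_pow_val, map_pow, ZMod.castHom_apply, ZMod.castHom_apply, hu, hu₀,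
      one_pow]

variable {V : Type} [Fintype V] {r : ℕ} {p : ℕ} [Fact p.Prime]

/-- An element of a level whose exponent-power is a standard generator of a place lies in the
subgroup it generates, where the level character is one modulo `π`. -/
theorem levelChar_sub_mem [Nonempty V] {O : Type} [CommRing O] [IsLocalRing O] (hp2 : p ≠ 2)
    (n : ℕ) {ζ : O} (hζ : ζ ^ p = 1) {π : O} (hπ : π ∣ ζ - 1) {v : V} {δ₀ : LevelGroup V p r n}
    (hδ₀ : δ₀ ^ halfInvExp (LevelGroup V p r n) = levelGen p n (Sum.inl v))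
    (δ k : LevelGroup V p r n) (hk : k ∈ Subgroup.zpowers δ₀) :
    levelChar hζ n (δ * k) - levelChar hζ n δ ∈
      Ideal.span {algebraMap O (MvPowerSeries (Fin r) O ⧸ levelIdeal O p n) π} := by
  classical
  set Q := MvPowerSeries (Fin r) O ⧸ levelIdeal O p n
  set g := levelGen (V := V) (r := r) p n (Sum.inl v)
  have hcop : (Nat.card (LevelGroup V p r n)).Coprime (halfInvExp (LevelGroup V p r n)) := by
    rw [card_levelGroup]
    exact ((coprime_halfInvExp hp2 n).symm).pow_left _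
  have hmem : δ₀ ∈ Subgroup.zpowers g := by
    refine ⟨(halfInvExp (LevelGroup V p r n)).gcdA (Nat.card (LevelGroup V p r n)), ?_⟩
    show g ^ _ = δ₀
    rw [← hδ₀, ← zpow_natCast, ← zpow_mul]
    have hb := Nat.gcd_eq_gcd_ab (halfInvExp (LevelGroup V p r n)) (Nat.card (LevelGroup V p r n))
    rw [hcop.symm.gcd_eq_one, Nat.cast_one] at hb
    conv_rhs => rw [← zpow_one δ₀, hb, zpow_add, zpow_mul δ₀ (Nat.card _ : ℤ), zpow_natCast,
      pow_card_eq_one', one_zpow, mul_one]
  obtain ⟨i, hi⟩ := mem_powers_iff_mem_zpowers.2 (Subgroup.zpowers_le.2 hmem hk)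
  have hi' : g ^ i = k := hi
  have hgv : levelChar hζ n g = algebraMap O Q ζ := by
    have : Fact (1 < p) := ⟨(Fact.out : p.Prime).one_lt⟩
    show levelChar hζ n (.ofAdd ((Pi.single v 1 : V → ZMod p), 0)) = _
    rw [levelChar_apply_left hζ n v 1, ZMod.val_one, pow_one]
  rw [map_mul, ← hi', map_pow, hgv, ← map_pow, ← mul_sub_one]
  refine Ideal.mul_mem_left _ _ ?_
  rw [← map_one (algebraMap O Q), ← map_sub, Ideal.mem_span_singleton]
  exact map_dvd _ (hπ.trans (sub_one_dvd_pow_sub_one ζ i))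

variable {O : Type} [CommRing O] [IsDomain O] [IsDiscreteValuationRing O]
  [IsAdicComplete (maximalIdeal O) O] [Finite (ResidueField O)] [CharZero O]
  {L : ℕ} [NeZero L] {Δ : Type} [CommGroup Δ] [Finite Δ] {ψ : (ZMod L)ˣ →* Δ} {S : Finset ℕ}
  {abar : ℕ → ResidueField O} {H : HeckeModule L ψ S abar}

omit [NeZero L] in
/-- An element vanishing at every point trivial on `K` is killed by the norm of `K`. -/
theorem sum_dia_mul_eq_zero (hp : (p : O) ∈ maximalIdeal O) (K : Subgroup Δ) [Fintype K]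
    (t : H.algebra) (h : ∀ θ : H.algebra →+* ℂ, (∀ k ∈ K, θ (diaA H k) = 1) → θ t = 0) :
    (∑ k : K, H.dia (k : Δ)) * (t : Module.End O H.M) = 0 := by
  suffices hA : (∑ k : K, diaA H (k : Δ)) * t = 0 by
    have := congrArg Subtype.val hA
    rw [Subalgebra.coe_mul, AddSubmonoidClass.coe_finsetSum, ZeroMemClass.coe_zero] at this
    exact this
  refine eq_zero_of_forall_complex hp fun θ => ?_
  rw [map_mul, map_sum]
  by_cases hK : ∀ k ∈ K, θ (diaA H k) = 1
  · rw [h θ hK, mul_zero]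
  · push Not at hK
    obtain ⟨k₀, hk₀, hne⟩ := hK
    have hs : θ (diaA H k₀) * ∑ k : K, θ (diaA H (k : Δ)) = ∑ k : K, θ (diaA H (k : Δ)) := by
      rw [Finset.mul_sum]
      refine Fintype.sum_equiv (Equiv.mulLeft ⟨k₀, hk₀⟩) _ _ fun k => ?_
      rw [← map_mul, ← map_mul]
      rfl
    have hz : ∑ k : K, θ (diaA H (k : Δ)) = 0 := by
      by_contra h0
      exact hne ((mul_eq_right₀ h0).1 hs)
    rw [hz, zero_mul]

end Fermat.Agent.RT.Patch

end
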