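import Fermat.Agent.RT.Assembly.Level
import Fermat.Agent.RT.Assembly.Tangent

/-!
# Tangent classes: finite level and values at the natural numbers
-/

set_option autoImplicit false
set_option linter.style.haveILetI false

noncomputable section

namespace Fermat.Agent.RT.Patch

open IsLocalRing Module Fermat.Agent.Deform Fermat.Agent.CFT.Tangent Fermat.Agent.Arith
  Fermat.Agent.RT.Assembly

variable {O : Type} [CommRing O] [IsDomain O] [IsDiscreteValuationRing O]
  [IsAdicComplete (maximalIdeal O) O] [Finite (ResidueField O)]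
  {A : Type} [CommRing A] [IsLocalRing A] [Algebra O A] [Module.Finite O A]
  {W : Rigid O}

omit [IsAdicComplete (maximalIdeal O) O] [Finite (ResidueField O)] in
theorem isFiniteLevel_tangentCls {h : IsResAlg O A} {ru : Gal →* M2 A} (hc : IsCont ru)
    (δ : tangentDer h) : IsFiniteLevel (tangentCls W h ru δ) := by
  have := IsNoetherianRing.of_finite O A
  obtain ⟨L, hL, hL'⟩ := hc 2
  refine ⟨L, hL, fun σ hσ => tangentCls_eq_zero δ fun i j => ?_⟩
  have h2 : ∀ x ∈ maximalIdeal A ^ 2, δ.1 x = 0 := by
    intro x hx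
    rw [pow_two] at hx
    refine Submodule.mul_induction_on hx (fun a ha b hb => ?_) fun a b ha hb => ?_
    · rw [δ.2.2.1, (augment_eq_zero_iff h a).2 ha, (augment_eq_zero_iff h b).2 hb]
      simp
    · rw [δ.2.1, ha, hb, add_zero]
  have h3 := h2 _ (hL' σ hσ i j)
  rw [← sub_add_cancel (ru σ i j) ((1 : M2 A) i j), δ.2.1, h3, zero_add]
  by_cases hij : i = j
  · subst hij; rw [Matrix.one_apply_eq]; exact tangentDer_one h δ
  · rw [Matrix.one_apply_ne hij]; exact tangentDer_zero h δ

omit [IsAdicComplete (maximalIdeal O) O] [Finite (ResidueField O)] [Module.Finite O A] in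
theorem tangentDer_natCast {h : IsResAlg O A} (δ : tangentDer h) (n : ℕ) : δ.1 (n : A) = 0 := by
  rw [← map_natCast (algebraMap O A)]
  exact δ.2.2.2 _

end Fermat.Agent.RT.Patch

end
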