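import Fermat.Agent.RT.Patch.Auxiliary
import Fermat.Agent.RT.Patch.Local
import Fermat.Agent.RT.Patch.Norm
import Fermat.Agent.RT.Patch.Tangent
import Fermat.Agent.RT.Glue.Bridge
import Fermat.Agent.RT.Glue.Flat
import Fermat.Agent.RT.Level.Module

/-!
# Lemmas on the patching level attached to a set of auxiliary primes
-/

set_option autoImplicit false
set_option linter.style.haveILetI false

noncomputable section

open WeierstrassCurve WeierstrassCurve.Affine WeierstrassCurve.Affine.Point Polynomial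
open scoped WeierstrassCurve.Affine TensorProduct

namespace Fermat.Agent.RT.Patch

open Fermat.Agent.Deform Fermat.Agent.RT.Assembly Fermat.Agent.Arith Fermat.Agent.RT.GammaH
open IsLocalRing Module
open Fermat.Agent.RT.Glue (diaA)

/-- Trace and determinant from a split characteristic polynomial. -/
theorem trace_eq_of_charpoly {A : Type} [CommRing A] [Nontrivial A] {X₀ : M2 A} {a b : A}
    (h : X₀.charpoly = (X - C a) * (X - C b)) : X₀.trace = a + b := by
  rw [Matrix.charpoly_fin_two] at h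
  have e := congrArg (fun f => Polynomial.coeff f 1) h
  simp [mul_sub, sub_mul, coeff_X, coeff_C, coeff_X_pow] at e
  linear_combination -e

theorem trace_matOf {A : Type} [CommRing A] [IsLocalRing A] (ρ : GaloisRepAdic A)
    (b : Basis (Fin 2) A ρ.V) (σ : Gal) : (matOf ρ b σ).trace = LinearMap.trace A ρ.V (ρ.ρ σ) :=
  (LinearMap.trace_eq_matrix_trace A b _).symm

theorem det_matOf {A : Type} [CommRing A] [IsLocalRing A] (ρ : GaloisRepAdic A)
    (b : Basis (Fin 2) A ρ.V) (σ : Gal) : (matOf ρ b σ).det = LinearMap.det (ρ.ρ σ) :=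
  LinearMap.det_toMatrix b _

theorem charpoly_matOf {A : Type} [CommRing A] [IsLocalRing A] (ρ : GaloisRepAdic A)
    (b : Basis (Fin 2) A ρ.V) (σ : Gal) :
    (matOf ρ b σ).charpoly = LinearMap.charpoly (ρ.ρ σ) :=
  LinearMap.charpoly_toMatrix _ b

/-- The square of the trace coordinate has coefficient one in the Frobenius relation. -/
theorem coeff_frobRel {O : Type} [CommRing O] {V : Type} {g : ℕ} (c : O) (v₀ : V) (v : ℕ) :
    MvPowerSeries.coeff (Finsupp.single (Sum.inl (v₀, (1 : Fin 2), (0 : Fin 3))) 2)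
      (frobRel (g := g) c v₀ v) = 1 := by
  classical
  rw [frobRel, map_sub, map_add, MvPowerSeries.coeff_X_pow, if_pos rfl, MvPowerSeries.coeff_C,
    if_neg (Finsupp.single_ne_zero.2 two_ne_zero), sub_zero, add_eq_left, MvPowerSeries.X,
    MvPowerSeries.X, MvPowerSeries.monomial_mul_monomial, MvPowerSeries.coeff_monomial, if_neg]
  intro h
  have h' := DFunLike.congr_fun h (Sum.inl (v₀, (1 : Fin 2), (0 : Fin 3)))
  simp at h'

theorem norm_two_padicComplex {p : ℕ} [Fact p.Prime] (hp2 : p ≠ 2) : ‖(2 : ℂ_[p])‖ = 1 := by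
  have h2 : (Nat.Coprime p 2) := (Nat.coprime_primes Fact.out Nat.prime_two).2 hp2
  rw [show (2 : ℂ_[p]) = algebraMap ℚ_[p] ℂ_[p] ((2 : ℕ) : ℚ_[p]) by rw [map_natCast]; norm_num,
    norm_algebraMap']
  exact Padic.norm_natCast_eq_one_iff.2 h2

section Rep

variable {O : Type} [CommRing O] [IsDomain O] [IsDiscreteValuationRing O] {L : ℕ} {Δ : Type}
  [CommGroup Δ] [Finite Δ] {ψ : (ZMod L)ˣ →* Δ} {S : Finset ℕ} {abar : ℕ → ResidueField O}
  {H : HeckeModule L ψ S abar} {Q : Type} [CommRing Q] [Algebra O Q]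
  (rep : H.algebra →ₐ[O] Matrix (Fin H.d) (Fin H.d) Q) {χ : Δ →* Q}
  (hrep : ∀ δ, rep (diaA H δ) = χ δ • 1)

include hrep

omit [Finite Δ] in
theorem rep_add_inv_const {g : Δ} {ζ ζi : O} (hζi : ζ * ζi = 1) (hg : χ g = algebraMap O Q ζ) :
    rep (diaA H g + diaA H g⁻¹) = rep (algebraMap O H.algebra (ζ + ζi)) := by
  have h : χ g⁻¹ * algebraMap O Q ζ = 1 := by rw [← hg, ← map_mul, inv_mul_cancel, map_one]
  have hgi : χ g⁻¹ = algebraMap O Q ζi := by
    calc χ g⁻¹ = χ g⁻¹ * (algebraMap O Q ζ * algebraMap O Q ζi) := by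
          rw [← map_mul, hζi, map_one, mul_one]
      _ = algebraMap O Q ζi := by rw [← mul_assoc, h, one_mul]
  rw [map_add, hrep, hrep, hg, hgi, AlgHom.commutes, ← add_smul, ← map_add,
    algebraMap_smul, Algebra.algebraMap_eq_smul_one]

omit [Finite Δ] in
theorem scalar_eq_rep_add_inv {g : Δ} {y : Q} (hg : χ g = y) :
    Matrix.scalar (Fin H.d) (y ^ 2 + 1) =
      Matrix.scalar (Fin H.d) y * rep (diaA H g + diaA H g⁻¹) := by
  have h : χ g⁻¹ * y = 1 := by rw [← hg, ← map_mul, inv_mul_cancel, map_one]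
  rw [map_add rep, hrep, hrep, hg, ← add_smul, Matrix.scalar_apply, Matrix.scalar_apply,
    ← Matrix.smul_one_eq_diagonal, ← Matrix.smul_one_eq_diagonal, smul_mul_smul_comm, one_mul,
    mul_add, mul_comm y (χ _), h, sq]

end Rep

/-- The level character at a standard generator of a place. -/
theorem levelChar_gen_left {V : Type} [Fintype V] {r p : ℕ} [Fact p.Prime] {O : Type} [CommRing O]
    [IsLocalRing O] {ζ : O} (hζ : ζ ^ p = 1) (n : ℕ) (v : V) :
    levelChar (r := r) hζ n (levelGen p n (Sum.inl v)) =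
      algebraMap O (MvPowerSeries (Fin r) O ⧸ levelIdeal O p n) ζ := by
  classical
  have : Fact (1 < p) := ⟨(Fact.out : p.Prime).one_lt⟩
  show levelChar hζ n (.ofAdd ((Pi.single v 1 : V → ZMod p), 0)) = _
  rw [levelChar_apply_left hζ n v 1, ZMod.val_one, pow_one]

/-- The level character at a standard generator of an auxiliary prime. -/
theorem levelChar_gen_right {V : Type} [Fintype V] {r p : ℕ} [Fact p.Prime] {O : Type} [CommRing O]
    [IsLocalRing O] {ζ : O} (hζ : ζ ^ p = 1) (n : ℕ) (i : Fin r) :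
    levelChar (V := V) hζ n (levelGen p n (Sum.inr i)) =
      1 + Ideal.Quotient.mk (levelIdeal O p n) (MvPowerSeries.X i) := by
  classical
  show levelChar hζ n (.ofAdd ((0 : V → ZMod p), Pi.single i 1)) = _
  rw [levelChar_apply_right hζ n i 1]
  rcases eq_or_ne n 0 with rfl | hn0
  · have h := one_add_mk_pow (O := O) (p := p) 0 i
    rw [pow_zero, pow_one] at h
    rw [h, one_pow]
  · have : Fact (1 < p ^ n) := ⟨Nat.one_lt_pow hn0 (Fact.out : p.Prime).one_lt⟩
    rw [ZMod.val_one, pow_one]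

end Fermat.Agent.RT.Patch

end
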