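import Fermat.Agent.RT.Assembly.Entries
import Fermat.Agent.RT.Glue.Approx
import Fermat.Agent.RT.Glue.FlatPair
import Fermat.Agent.Deform.Level

/-!
# Flatness and the determinant condition for a conjugated and corestricted representation
-/

set_option autoImplicit false
set_option linter.style.haveILetI false

noncomputable section

namespace Fermat.Agent.RT.Patch

open IsLocalRing Fermat.Agent.Deform Fermat.Agent.Arith Fermat.Agent.RT.Assembly

/-- Flatness is invariant under equivalence. -/
theorem isFlatAt_of_isEquiv {A : Type} [CommRing A] [IsLocalRing A] {ρ₁ ρ₂ : GaloisRepAdic A}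
    {p : ℕ} (h : ρ₁.IsEquiv ρ₂) (hf : ρ₁.IsFlatAt p) : ρ₂.IsFlatAt p := by
  obtain ⟨e⟩ := h
  refine ⟨hf.1, fun I hI => ?_⟩
  obtain ⟨H, i1, i2, h1, h2, h3, f, hadd, hσ⟩ := hf.2 I hI
  have hmap : (I • (⊤ : Submodule A ρ₁.V)).map e.toLinearEquiv.toLinearMap = I • ⊤ := by
    rw [Submodule.map_smul'', Submodule.map_top, LinearEquiv.range]
  let E := Submodule.Quotient.equiv _ _ e.toLinearEquiv hmap
  refine ⟨H, i1, i2, h1, h2, h3, f.trans E.toEquiv, fun a b => ?_, fun σ a b hab => ?_⟩
  · show E (f (a * b)) = E (f a) + E (f b)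
    rw [hadd, map_add]
  · show E (f b) = ρ₂.levelAction I σ (E (f a))
    rw [hσ σ a b hab]
    generalize f a = x
    obtain ⟨v, rfl⟩ := Submodule.Quotient.mk_surjective _ x
    simp [E, GaloisRepAdic.levelAction, Submodule.mapQ_apply, e.map_apply]

variable {O : Type} [CommRing O] [IsDomain O] [IsDiscreteValuationRing O]
  [IsAdicComplete (maximalIdeal O) O]
  {A : Type} [CommRing A] [IsLocalRing A] [Algebra O A] [Module.Finite O A]
  {p : ℕ} [Fact p.Prime]

omit [IsAdicComplete (maximalIdeal O) O] in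
/-- The congruences on the determinant descend to the algebra of entries. -/
theorem detIsCyclotomic_corestrict (hA : IsResAlg O A) (hp : (p : O) ∈ maximalIdeal O)
    (S : Subalgebra O A) [IsLocalRing S] {r : Gal →* M2 A} (hS : ∀ σ i j, r σ i j ∈ S)
    (hdet : ∀ (n : ℕ) (σ : Gal) (a : ℕ), (∀ μ : QBar, μ ^ p ^ n = 1 → σ μ = μ ^ a) →
      (r σ).det - a ∈ Ideal.span {(p : A) ^ n})
    (hc : IsCont (corestrict S r hS)) :
    (toRep (corestrict S r hS) hc).DetIsCyclotomic p := by
  have hlocS := (isResAlg_subalgebra hA S).isLocalHom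
  refine ⟨by rw [← map_natCast (algebraMap O S)]; exact map_nonunit (algebraMap O S) _ hp,
    fun n σ a ha => ?_⟩
  obtain ⟨c, hc'⟩ :=
    (Ideal.span {(p : O)}).exists_pow_inf_eq_pow_smul (Subalgebra.toSubmodule S)
  obtain ⟨a', ha'⟩ := Glue.exists_exponent (p := p) σ (n + c)
  have hna : (a : S) - a' ∈ Ideal.span {((p ^ n : ℕ) : S)} := by
    rw [Nat.cast_pow]
    refine Glue.natCast_congr_of_roots ha fun μ hμ => ha' μ ?_
    rw [pow_add, pow_mul, hμ, one_pow]
  set d : S := (corestrict S r hS σ).det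
  have hdA : (d : A) = (r σ).det := by
    rw [show (d : A) = (S.val : S →+* A) d from rfl, RingHom.map_det]
    rfl
  have hmem : ((d - a' : S) : A) ∈ (Ideal.span {(p : O)}) ^ (n + c) • (⊤ : Submodule O A) ⊓
      Subalgebra.toSubmodule S := by
    refine ⟨?_, (d - a' : S).2⟩
    rw [Ideal.smul_top_eq_map, SetLike.mem_coe, Submodule.restrictScalars_mem, Ideal.map_pow, Ideal.map_span,
      Set.image_singleton, map_natCast, Ideal.span_singleton_pow, AddSubgroupClass.coe_sub, hdA,
      SubringClass.coe_natCast]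
    exact hdet _ σ a' ha'
  rw [hc' (n + c) (Nat.le_add_left _ _), Nat.add_sub_cancel] at hmem
  have hmem' := Submodule.smul_mono (le_refl _) inf_le_right hmem
  rw [Ideal.span_singleton_pow, Submodule.ideal_span_singleton_smul] at hmem'
  obtain ⟨y, hy, hyx⟩ := (Submodule.mem_smul_pointwise_iff_exists _ _ _).1 hmem'
  have hd : d - a' ∈ Ideal.span {((p ^ n : ℕ) : S)} := by
    refine Ideal.mem_span_singleton'.2 ⟨⟨y, hy⟩, Subtype.ext ?_⟩
    rw [Subalgebra.coe_mul, ← hyx, Algebra.smul_def, map_pow, map_natCast, mul_comm]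
    simp
  have hdd : LinearMap.det ((toRep (corestrict S r hS) hc).ρ σ) = d :=
    LinearMap.det_toLin' _
  rw [hdd, show d - (a : S) = (d - a') - ((a : S) - a') by ring]
  exact sub_mem hd hna

omit [Fact p.Prime] [IsAdicComplete (maximalIdeal O) O] in
/-- Flatness descends to the algebra of entries. -/
theorem isFlatAt_corestrict (S : Subalgebra O A) [IsLocalRing S] {r : Gal →* M2 A}
    {hc : IsCont r} (hflat : (toRep r hc).IsFlatAt p) (hS : ∀ σ i j, r σ i j ∈ S)
    (hc' : IsCont (corestrict S r hS)) : (toRep (corestrict S r hS) hc').IsFlatAt p := by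
  have := finite_subalgebra S
  have := IsNoetherianRing.of_finite O S
  have hloc := isLocalHom_subalgebra_val S
  have hfin : (S.val : S →+* A).Finite := by
    have : Module.Finite S A := Module.Finite.of_restrictScalars_finite O S A
    exact RingHom.finite_algebraMap.2 this
  refine Glue.isFlatAt_of_baseChange (S.val : S →+* A) hloc Subtype.val_injective hfin _ ?_
  refine isFlatAt_of_isEquiv (Deform.isEquiv_symm ?_) hflat
  exact Deform.isEquiv_trans (isEquiv_baseChangeAlong_toRep _ hloc _ hc')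
    (isEquiv_toRep_congr (mapM_corestrict S r hS) _ _)

omit [IsAdicComplete (maximalIdeal O) O] [Module.Finite O A] [Fact p.Prime] in
/-- Flatness of a conjugate. -/
theorem isFlatAt_conjM {r : Gal →* M2 A} {hc : IsCont r} (hflat : (toRep r hc).IsFlatAt p)
    (P : (M2 A)ˣ) : (toRep (conjM P r) (hc.conj P)).IsFlatAt p :=
  isFlatAt_of_isEquiv (isEquiv_conj hc P) hflat

end Fermat.Agent.RT.Patch

end
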