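import Fermat.Agent.RT.Patch.Inputs
import Fermat.Agent.RT.Lift.RankBound
import Fermat.Agent.RT.Assembly.Forms
import Fermat.Agent.ConductorLevel.Raise

/-!
# Auxiliary levels: congruent forms and ranks
-/

set_option autoImplicit false
set_option linter.style.haveILetI false

noncomputable section

open WeierstrassCurve WeierstrassCurve.Affine WeierstrassCurve.Affine.Point Polynomial
open CongruenceSubgroup ModularFormClass
open scoped WeierstrassCurve.Affine TensorProduct

namespace Fermat.Agent.RT.Patch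

open Fermat.Agent.Deform Fermat.Agent.RT.Assembly Fermat.Agent.Arith Fermat.Agent.RT.GammaH
open IsLocalRing Module

/-- Congruence of levels passes to squarefree multiples. -/
theorem isCongruentLevel_of_dvd {k : Type} [Field k] {S : Finset ℕ} {abar : ℕ → k} {L M : ℕ}
    (hL : Squarefree L) (hML : M ∣ L) (hS : ∀ v : ℕ, v.Prime → v ∣ L → v ∈ S)
    (h : IsCongruentLevel S abar M) : IsCongruentLevel S abar L := by
  obtain ⟨g, hg, φ, hφ⟩ := h
  obtain ⟨G, hG, hGg⟩ := ConductorLevel.exists_raise hL hML hg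
  exact ⟨G, hG, φ, fun ℓ hℓ hℓS a ha =>
    hφ ℓ hℓ hℓS a (ha.trans (hGg ℓ hℓ fun hd => hℓS (hS ℓ hℓ hd)))⟩

/-- The bound on the rank, independent of the auxiliary primes. -/
def rankBound (O : Type) [CommRing O] (N R : ℕ) : ℕ :=
  2 ^ R * Module.finrank O (HomMod O ∅ (⊤ : Subgroup (ZMod N)ˣ) O)

end Fermat.Agent.RT.Patch

end
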