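import Fermat.Agent.RT.Patch.Level
import Fermat.Agent.RT.InertiaTW.Main
import Fermat.Agent.GaloisReps.Unconditional
import Fermat.Agent.FiniteFlat.DatumFlat

/-!
# The inputs of the patching levels
-/

set_option autoImplicit false

noncomputable section

namespace Fermat.Agent.RT.Patch

/-- The inputs. -/
theorem patchInputs : PatchInputs where
  congr := GaloisReps.congruenceProperty
  galOrder := fun _ _ _ _ h _ hpN n => FiniteFlat.nonempty_galOrder_modelOfCongruence hpN h n
  inertia := InertiaTW.traceInertia

end Fermat.Agent.RT.Patch

end
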