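import Fermat.Agent.RT.InertiaTW.Statement
import Fermat.Agent.GaloisReps.Flat
import Fermat.Agent.NewformLocal.Models

/-!
# The facts used by level lowering by patching
-/

set_option autoImplicit false

noncomputable section

namespace Fermat.Agent.RT.Patch

open GaloisReps (CongruenceProperty modelOfCongruence ModelLevel HeckeGaloisModel)
open FiniteFlat (GalOrder)

/-- The inputs: congruences on torsion, finite flat orders on the levels of the models at a prime
not dividing the level, and inertia at twisted primes. -/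
structure PatchInputs : Prop where
  congr : ∀ (N p : ℕ) [NeZero N] [Fact p.Prime], CongruenceProperty N p
  galOrder : ∀ (N p : ℕ) [NeZero N] [Fact p.Prime] (h : CongruenceProperty N p), p ≠ 2 → ¬ p ∣ N →
    ∀ n : ℕ, Nonempty (GalOrder p (ModelLevel (modelOfCongruence h) n))
  inertia : ∀ (p q R M : ℕ) [Fact p.Prime] [Fact q.Prime] [NeZero R] [NeZero M]
    (g : CuspForm (CongruenceSubgroup.Gamma0 M) 2), InertiaTW.TraceInertia p q R M g

/-- The models. -/
def PatchInputs.model (I : PatchInputs) (p : ℕ) [Fact p.Prime] (M : ℕ) [NeZero M] :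
    HeckeGaloisModel M p :=
  modelOfCongruence (I.congr M p)

theorem PatchInputs.semistable (I : PatchInputs) {p : ℕ} [Fact p.Prime] (M : ℕ) [NeZero M] {q : ℕ}
    (hq : q.Prime) (hqp : q ≠ p) (hqM : q ∣ M) (hq2 : ¬ q ^ 2 ∣ M) :
    NewformLocal.UnipotentAt (I.model p M) q ∧ NewformLocal.ToricSquareAt (I.model p M) q :=
  ⟨GaloisReps.unipotentAt_modelOfCongruence (I.congr M p) hq hqp
    (Semistable.torsionUnipotentAt hq hqM hq2),
    NewformLocal.Toric.toricSquareAt (I.congr M p) hq hqp hq2⟩

end Fermat.Agent.RT.Patch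

end
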